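import Fermat.Agent.RuziewiczProblem.Hopf
import Fermat.Agent.BanachRuziewicz.Gap

/-!
# The gap on the two-sphere

The map of Hopf carries left multiplication to rotation, so functions on the two-sphere inherit
the gap of the three-sphere.
-/

set_option autoImplicit false
set_option linter.unusedSectionVars false
set_option linter.style.haveILetI false

noncomputable section

open Quaternion MeasureTheory
open scoped Quaternion
open FA.QuaternionJL FA.QuaternionJLSystems
open FA.SphereHecke (R4 sphereLaw vec4)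
open FA.BanachTarski (E3)
open FA.BanachRuziewicz (rotFun avgOp avgOp_succ gapRate gapRate_lt_one qlin)

namespace FA.RuziewiczProblem

/-- The rotation of space by a quaternion of norm `n`. -/
def rotTwo (n : ℕ) (x : ℍ[ℚ]) (v : E3) : E3 := (n : ℝ)⁻¹ • conjQ (vec4 x) v

theorem rotFun_eq_qprod (n : ℕ) (x : ℍ[ℚ]) (u : R4) :
    rotFun n x u = qprod ((Real.sqrt n)⁻¹ • vec4 x) u := by
  show (Real.sqrt n)⁻¹ • qlin x u = _
  rw [qlin_eq_qprod]
  refine WithLp.ofLp_injective 2 (funext fun i => ?_)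
  fin_cases i <;> simp [qprod] <;> ring

theorem rotTwo_eq_conjQ (n : ℕ) (x : ℍ[ℚ]) (v : E3) :
    rotTwo n x v = conjQ ((Real.sqrt n)⁻¹ • vec4 x) v := by
  rw [rotTwo, conjQ_smul, inv_pow, Real.sq_sqrt (Nat.cast_nonneg n)]

theorem norm_scaled {n : ℕ} (hn : n ≠ 0) {x : ℍ[ℚ]} (hx : x ∈ normHz n) :
    ‖(Real.sqrt n)⁻¹ • vec4 x‖ = 1 :=
  SphereHecke.norm_spherePoint hn hx

/-- The rotation. -/
def rotTwoEquiv {n : ℕ} (hn : n ≠ 0) (x : normHz n) : E3 ≃ₗᵢ[ℝ] E3 :=
  conjEquiv (norm_scaled hn x.2)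

theorem coe_rotTwoEquiv {n : ℕ} (hn : n ≠ 0) (x : normHz n) :
    ⇑(rotTwoEquiv hn x) = rotTwo n x := by
  funext v
  rw [rotTwoEquiv, coe_conjEquiv, rotTwo_eq_conjQ]

theorem hopf_rotFun (n : ℕ) (x : ℍ[ℚ]) (u : R4) :
    hopf (rotFun n x u) = rotTwo n x (hopf u) := by
  rw [rotFun_eq_qprod, hopf_qprod, rotTwo_eq_conjQ]

/-- The averaging operator of the rotations of space. -/
def avgTwo (p : ℕ) (F : E3 → ℝ) (v : E3) : ℝ :=
  ((normHz p).card : ℝ)⁻¹ * ∑ x ∈ normHz p, F (rotTwo p x v)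

theorem iterate_avgOp_hopf (p : ℕ) (F : E3 → ℝ) :
    ∀ (r : ℕ) (u : R4), (avgOp p)^[r] (fun w => F (hopf w)) u = (avgTwo p)^[r] F (hopf u) := by
  intro r
  induction r with
  | zero => exact fun u => rfl
  | succ r ih =>
    intro u
    rw [avgOp_succ, Function.iterate_succ_apply' (avgTwo p), avgTwo]
    exact congrArg _ (Finset.sum_congr rfl fun x _ => by rw [ih, hopf_rotFun])

variable {p : ℕ}

theorem aestronglyMeasurable_avgTwo (hp : p ≠ 0) {F : E3 → ℝ}
    (hF : AEStronglyMeasurable F (radialLaw E3)) (r : ℕ) :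
    AEStronglyMeasurable ((avgTwo p)^[r] F) (radialLaw E3) := by
  induction r with
  | zero => exact hF
  | succ r ih =>
    rw [Function.iterate_succ_apply']
    refine AEStronglyMeasurable.const_mul
      (Finset.aestronglyMeasurable_fun_sum _ fun x hx => ?_) _
    have h := ih.comp_measurePreserving (measurePreserving_radialLaw (rotTwoEquiv hp ⟨x, hx⟩))
    rwa [coe_rotTwoEquiv] at h

theorem integral_hopf {F : E3 → ℝ} (hF : AEStronglyMeasurable F (radialLaw E3)) :
    ∫ u, F (hopf u) ∂sphereLaw = ∫ v, F v ∂radialLaw E3 := by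
  rw [radialLaw_eq_map_hopf] at hF ⊢
  exact (integral_map continuous_hopf.measurable.aemeasurable hF).symm

theorem memLp_hopf {F : E3 → ℝ} (hF : MemLp F 2 (radialLaw E3)) :
    MemLp (fun u => F (hopf u)) 2 sphereLaw :=
  hF.comp_measurePreserving measurePreserving_hopf

theorem integral_sq_hopf {F : E3 → ℝ} (hF : AEStronglyMeasurable F (radialLaw E3)) (c : ℝ) :
    ∫ u, (F (hopf u) - c) ^ 2 ∂sphereLaw = ∫ v, (F v - c) ^ 2 ∂radialLaw E3 :=
  integral_hopf (F := fun v => (F v - c) ^ 2) ((hF.sub aestronglyMeasurable_const).pow 2)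

/-- **The gap on the two-sphere.** -/
theorem twosphere_iterate_le (hp : p.Prime) (h16 : 16 ≤ p) {F : E3 → ℝ}
    (hF : MemLp F 2 (radialLaw E3)) (r : ℕ) :
    ∫ v, ((avgTwo p)^[r] F v - ∫ w, F w ∂radialLaw E3) ^ 2 ∂radialLaw E3 ≤
      gapRate p ^ (2 * r) * ∫ v, (F v - ∫ w, F w ∂radialLaw E3) ^ 2 ∂radialLaw E3 := by
  have h := pow_le_pow_left₀ (norm_nonneg _)
    (BanachRuziewicz.norm_iterate_le hp h16 ((memLp_hopf hF).toLp _) r) 2
  rw [mul_pow, BanachRuziewicz.iterate_toLp hp (by omega) (memLp_hopf hF) r,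
    BanachRuziewicz.centred_toLp (memLp_hopf hF), ← pow_mul, mul_comm r,
    integral_hopf hF.aestronglyMeasurable] at h
  simp only [iterate_avgOp_hopf] at h
  rw [integral_sq_hopf (aestronglyMeasurable_avgTwo hp.ne_zero hF.aestronglyMeasurable r),
    integral_sq_hopf hF.aestronglyMeasurable] at h
  exact h

/-- **Some rotation moves a function.** -/
theorem twosphere_moved (hp : p.Prime) (h16 : 16 ≤ p) {F : E3 → ℝ}
    (hF : MemLp F 2 (radialLaw E3)) :
    ∃ x : normHz p, (1 - gapRate p) ^ 2 * ∫ v, (F v - ∫ w, F w ∂radialLaw E3) ^ 2 ∂radialLaw E3 ≤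
      ∫ v, (F (rotTwo p x v) - F v) ^ 2 ∂radialLaw E3 := by
  obtain ⟨x, hx, h⟩ := BanachRuziewicz.exists_moved hp h16 ((memLp_hopf hF).toLp _)
  refine ⟨⟨x, hx⟩, ?_⟩
  have h2 := pow_le_pow_left₀
    (mul_nonneg (sub_nonneg.2 (gapRate_lt_one (p := p) h16).le) (norm_nonneg _)) h 2
  rw [mul_pow, BanachRuziewicz.centred_toLp (memLp_hopf hF),
    BanachRuziewicz.rotL_toLp hp.ne_zero hx (memLp_hopf hF),
    integral_hopf hF.aestronglyMeasurable, integral_sq_hopf hF.aestronglyMeasurable] at h2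
  simp only [hopf_rotFun] at h2
  have hm := hF.aestronglyMeasurable.comp_measurePreserving
    (measurePreserving_radialLaw (rotTwoEquiv hp.ne_zero ⟨x, hx⟩))
  rw [coe_rotTwoEquiv] at hm
  rw [integral_hopf (F := fun v => (F (rotTwo p x v) - F v) ^ 2)
    ((hm.sub hF.aestronglyMeasurable).pow 2)] at h2
  exact h2

end FA.RuziewiczProblem

end
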