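import Fermat.Agent.RuziewiczProblem.Sphere
import Fermat.Agent.BanachRuziewicz.Rotation
import Fermat.Agent.BanachTarski.Rotations
import Mathlib.MeasureTheory.Integral.Prod

/-!
# The fibration of Hopf

A unit quaternion rotates three-space by conjugation, and the image of the first basis vector
carries the law of the three-sphere to the only rotation invariant probability on the two-sphere.
-/

set_option autoImplicit false
set_option linter.unusedSectionVars false
set_option linter.style.haveILetI false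

noncomputable section

open MeasureTheory Metric
open scoped RealInnerProductSpace BoundedContinuousFunction
open FA.SphereHecke (R4 sphereLaw vec4 inner_four)
open FA.BanachTarski (E3 pt pt_zero pt_one pt_two ext3 cross)

namespace FA.RuziewiczProblem

/-- The product of quaternions in coordinates. -/
def qprod (u : R4) : R4 →ₗ[ℝ] R4 where
  toFun w := WithLp.toLp 2
    ![u 0 * w 0 - u 1 * w 1 - u 2 * w 2 - u 3 * w 3,
      u 0 * w 1 + u 1 * w 0 + u 2 * w 3 - u 3 * w 2,
      u 0 * w 2 - u 1 * w 3 + u 2 * w 0 + u 3 * w 1,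
      u 0 * w 3 + u 1 * w 2 - u 2 * w 1 + u 3 * w 0]
  map_add' v w := by
    refine WithLp.ofLp_injective 2 (funext fun i => ?_)
    fin_cases i <;> simp <;> ring
  map_smul' c w := by
    refine WithLp.ofLp_injective 2 (funext fun i => ?_)
    fin_cases i <;> simp <;> ring

/-- The unit. -/
def qone : R4 := EuclideanSpace.single 0 1

/-- The conjugate. -/
def qconj (u : R4) : R4 := WithLp.toLp 2 ![u 0, -u 1, -u 2, -u 3]

theorem qlin_eq_qprod (x : Quaternion ℚ) (u : R4) :
    BanachRuziewicz.qlin x u = qprod (vec4 x) u := by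
  refine WithLp.ofLp_injective 2 (funext fun i => ?_)
  fin_cases i <;> simp [BanachRuziewicz.qlin, qprod, vec4]

theorem norm_sq_four (u : R4) : ‖u‖ ^ 2 = u 0 ^ 2 + u 1 ^ 2 + u 2 ^ 2 + u 3 ^ 2 := by
  rw [← real_inner_self_eq_norm_sq, inner_four]
  ring

theorem norm_qprod (u w : R4) : ‖qprod u w‖ = ‖u‖ * ‖w‖ := by
  refine (sq_eq_sq₀ (norm_nonneg _) (by positivity)).1 ?_
  rw [mul_pow, norm_sq_four, norm_sq_four, norm_sq_four]
  simp [qprod]
  ring

theorem norm_qconj (u : R4) : ‖qconj u‖ = ‖u‖ := by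
  refine (sq_eq_sq₀ (norm_nonneg _) (norm_nonneg _)).1 ?_
  rw [norm_sq_four, norm_sq_four]
  simp [qconj]

theorem norm_qone : ‖qone‖ = 1 := by simp [qone]

theorem qprod_assoc (u v w : R4) : qprod (qprod u v) w = qprod u (qprod v w) := by
  refine WithLp.ofLp_injective 2 (funext fun i => ?_)
  fin_cases i <;> simp [qprod] <;> ring

theorem qprod_qone (u : R4) : qprod qone u = u := by
  refine WithLp.ofLp_injective 2 (funext fun i => ?_)
  fin_cases i <;> simp [qprod, qone]

theorem qprod_qconj (u : R4) : qprod u (qconj u) = ‖u‖ ^ 2 • qone := by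
  rw [norm_sq_four]
  refine WithLp.ofLp_injective 2 (funext fun i => ?_)
  fin_cases i <;> simp [qprod, qconj, qone] <;> ring

theorem qconj_qconj (u : R4) : qconj (qconj u) = u := by
  refine WithLp.ofLp_injective 2 (funext fun i => ?_)
  fin_cases i <;> simp [qconj]

/-- Left multiplication by a unit quaternion. -/
def leftEquiv {q : R4} (hq : ‖q‖ = 1) : R4 ≃ₗᵢ[ℝ] R4 :=
  LinearIsometry.toLinearIsometryEquiv
    ⟨qprod q, fun w => by rw [norm_qprod, hq, one_mul]⟩ rfl

theorem coe_leftEquiv {q : R4} (hq : ‖q‖ = 1) : ⇑(leftEquiv hq) = qprod q := rfl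

theorem leftEquiv_symm {q : R4} (hq : ‖q‖ = 1) (u : R4) :
    (leftEquiv hq).symm u = qprod (qconj q) u := by
  rw [LinearIsometryEquiv.symm_apply_eq, coe_leftEquiv, ← qprod_assoc, qprod_qconj, hq, one_pow,
    one_smul, qprod_qone]

/-- Right multiplication. -/
def qprodR (w : R4) : R4 →ₗ[ℝ] R4 where
  toFun u := qprod u w
  map_add' u v := by
    refine WithLp.ofLp_injective 2 (funext fun i => ?_)
    fin_cases i <;> simp [qprod] <;> ring
  map_smul' c u := by
    refine WithLp.ofLp_injective 2 (funext fun i => ?_)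
    fin_cases i <;> simp [qprod] <;> ring

theorem qprodR_apply (w u : R4) : qprodR w u = qprod u w := rfl

/-- Right multiplication by a unit quaternion. -/
def rightEquiv {q : R4} (hq : ‖q‖ = 1) : R4 ≃ₗᵢ[ℝ] R4 :=
  LinearIsometry.toLinearIsometryEquiv
    ⟨qprodR q, fun u => by rw [qprodR_apply, norm_qprod, hq, mul_one]⟩ rfl

/-- Conjugation by a quaternion. -/
def conjQ (u : R4) : E3 →ₗ[ℝ] E3 where
  toFun v := pt
    ((u 0 ^ 2 + u 1 ^ 2 - u 2 ^ 2 - u 3 ^ 2) * v 0 + 2 * (u 1 * u 2 - u 0 * u 3) * v 1 +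
      2 * (u 1 * u 3 + u 0 * u 2) * v 2)
    (2 * (u 1 * u 2 + u 0 * u 3) * v 0 + (u 0 ^ 2 - u 1 ^ 2 + u 2 ^ 2 - u 3 ^ 2) * v 1 +
      2 * (u 2 * u 3 - u 0 * u 1) * v 2)
    (2 * (u 1 * u 3 - u 0 * u 2) * v 0 + 2 * (u 2 * u 3 + u 0 * u 1) * v 1 +
      (u 0 ^ 2 - u 1 ^ 2 - u 2 ^ 2 + u 3 ^ 2) * v 2)
  map_add' v w := ext3 (by simp; ring) (by simp; ring) (by simp; ring)
  map_smul' c v := ext3 (by simp; ring) (by simp; ring) (by simp; ring)

theorem norm_sq_three (v : E3) : ‖v‖ ^ 2 = v 0 ^ 2 + v 1 ^ 2 + v 2 ^ 2 := by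
  rw [EuclideanSpace.norm_sq_eq, Fin.sum_univ_three]
  simp

theorem norm_conjQ (u : R4) (v : E3) : ‖conjQ u v‖ = ‖u‖ ^ 2 * ‖v‖ := by
  refine (sq_eq_sq₀ (norm_nonneg _) (by positivity)).1 ?_
  rw [mul_pow, norm_sq_three, norm_sq_three, norm_sq_four]
  simp [conjQ]
  ring

theorem conjQ_qprod (u w : R4) (v : E3) : conjQ (qprod u w) v = conjQ u (conjQ w v) :=
  ext3 (by simp [conjQ, qprod]; ring) (by simp [conjQ, qprod]; ring)
    (by simp [conjQ, qprod]; ring)

theorem conjQ_smul (s : ℝ) (u : R4) (v : E3) : conjQ (s • u) v = s ^ 2 • conjQ u v :=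
  ext3 (by simp [conjQ]; ring) (by simp [conjQ]; ring) (by simp [conjQ]; ring)

theorem conjQ_cross (u : R4) (v w : E3) :
    cross (conjQ u v) (conjQ u w) = ‖u‖ ^ 2 • conjQ u (cross v w) := by
  rw [norm_sq_four]
  exact ext3 (by simp [conjQ, cross]; ring) (by simp [conjQ, cross]; ring)
    (by simp [conjQ, cross]; ring)

theorem conjQ_qone (v : E3) : conjQ qone v = v :=
  ext3 (by simp [conjQ, qone]) (by simp [conjQ, qone]) (by simp [conjQ, qone])

theorem conjQ_left_inv {q : R4} (hq : ‖q‖ = 1) (v : E3) : conjQ q (conjQ (qconj q) v) = v := by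
  rw [← conjQ_qprod, qprod_qconj, hq, one_pow, one_smul, conjQ_qone]

/-- The rotation of a unit quaternion. -/
def conjEquiv {q : R4} (hq : ‖q‖ = 1) : E3 ≃ₗᵢ[ℝ] E3 :=
  LinearIsometry.toLinearIsometryEquiv
    ⟨conjQ q, fun v => by rw [norm_conjQ, hq, one_pow, one_mul]⟩ rfl

theorem coe_conjEquiv {q : R4} (hq : ‖q‖ = 1) : ⇑(conjEquiv hq) = conjQ q := rfl

/-- The linear isometries of space keeping the vector product. -/
def IsRotation (e : E3 ≃ₗᵢ[ℝ] E3) : Prop := ∀ v w, e (cross v w) = cross (e v) (e w)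

theorem isRotation_conjEquiv {q : R4} (hq : ‖q‖ = 1) : IsRotation (conjEquiv hq) := fun v w => by
  rw [coe_conjEquiv, conjQ_cross, hq, one_pow, one_smul]

/-- The map of Hopf. -/
def hopf (u : R4) : E3 := conjQ u (pt 1 0 0)

theorem hopf_qprod (u w : R4) : hopf (qprod u w) = conjQ u (hopf w) := conjQ_qprod u w _

theorem hopf_smul (s : ℝ) (u : R4) : hopf (s • u) = s ^ 2 • hopf u := conjQ_smul s u _

theorem norm_hopf {u : R4} (hu : ‖u‖ = 1) : ‖hopf u‖ = 1 := by
  rw [hopf, norm_conjQ, hu, one_pow, one_mul]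
  refine (sq_eq_sq₀ (norm_nonneg _) zero_le_one).1 ?_
  rw [norm_sq_three]
  simp

theorem continuous_pt {α : Type*} [TopologicalSpace α] {f g h : α → ℝ} (hf : Continuous f)
    (hg : Continuous g) (hh : Continuous h) : Continuous fun a => pt (f a) (g a) (h a) :=
  (PiLp.continuous_toLp 2 _).comp (hf.matrixVecCons (hg.matrixVecCons (hh.matrixVecCons
    continuous_const)))

theorem continuous_conjQ : Continuous fun z : R4 × E3 => conjQ z.1 z.2 := by
  have hu : ∀ i, Continuous fun z : R4 × E3 => z.1 i := fun i => by fun_prop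
  have hv : ∀ i, Continuous fun z : R4 × E3 => z.2 i := fun i => by fun_prop
  have key := continuous_pt
    ((((((hu 0).pow 2).add ((hu 1).pow 2)).sub ((hu 2).pow 2)).sub ((hu 3).pow 2)).mul (hv 0)
      |>.add (((((hu 1).mul (hu 2)).sub ((hu 0).mul (hu 3))).const_mul 2).mul (hv 1))
      |>.add (((((hu 1).mul (hu 3)).add ((hu 0).mul (hu 2))).const_mul 2).mul (hv 2)))
    ((((((hu 1).mul (hu 2)).add ((hu 0).mul (hu 3))).const_mul 2).mul (hv 0))
      |>.add ((((((hu 0).pow 2).sub ((hu 1).pow 2)).add ((hu 2).pow 2)).sub ((hu 3).pow 2)).mul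
        (hv 1))
      |>.add (((((hu 2).mul (hu 3)).sub ((hu 0).mul (hu 1))).const_mul 2).mul (hv 2)))
    ((((((hu 1).mul (hu 3)).sub ((hu 0).mul (hu 2))).const_mul 2).mul (hv 0))
      |>.add (((((hu 2).mul (hu 3)).add ((hu 0).mul (hu 1))).const_mul 2).mul (hv 1))
      |>.add ((((((hu 0).pow 2).sub ((hu 1).pow 2)).sub ((hu 2).pow 2)).add ((hu 3).pow 2)).mul
        (hv 2)))
  exact key

theorem continuous_hopf : Continuous hopf := by
  have hf : Continuous fun u : R4 => (u, pt 1 0 0) := continuous_id.prodMk continuous_const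
  have h := Continuous.comp continuous_conjQ hf
  rw [show hopf = (fun z : R4 × E3 => conjQ z.1 z.2) ∘ fun u : R4 => (u, pt 1 0 0) from
    funext fun u => by rw [Function.comp_apply, hopf]]
  exact h

/-- **Every point of the two-sphere is an image.** -/
theorem exists_hopf_eq {v : E3} (hv : ‖v‖ = 1) : ∃ q : R4, ‖q‖ = 1 ∧ hopf q = v := by
  have h1 : v 0 ^ 2 + v 1 ^ 2 + v 2 ^ 2 = 1 := by rw [← norm_sq_three, hv, one_pow]
  have hle : -1 ≤ v 0 := by nlinarith [sq_nonneg (v 1), sq_nonneg (v 2)]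
  rcases hle.eq_or_lt with h | h
  · refine ⟨WithLp.toLp 2 ![0, 0, 1, 0], ?_, ?_⟩
    · refine (sq_eq_sq₀ (norm_nonneg _) zero_le_one).1 ?_
      rw [norm_sq_four]
      simp
    · have h12 : v 1 = 0 ∧ v 2 = 0 := by
        rw [← h] at h1
        constructor <;> nlinarith [sq_nonneg (v 1), sq_nonneg (v 2)]
      refine ext3 ?_ ?_ ?_ <;> simp [hopf, conjQ, ← h, h12.1, h12.2]
  · set s := Real.sqrt (2 * (1 + v 0))
    have hs : s ^ 2 = 2 * (1 + v 0) := Real.sq_sqrt (by linarith)
    set w : R4 := WithLp.toLp 2 ![1 + v 0, 0, -v 2, v 1]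
    have hw : hopf w = (2 * (1 + v 0)) • v :=
      ext3 (by simp [w, hopf, conjQ]; linear_combination -h1) (by simp [w, hopf, conjQ]; ring)
        (by simp [w, hopf, conjQ]; ring)
    refine ⟨s⁻¹ • w, ?_, ?_⟩
    · refine (sq_eq_sq₀ (norm_nonneg _) zero_le_one).1 ?_
      rw [norm_smul, mul_pow, Real.norm_eq_abs, sq_abs, inv_pow, hs, norm_sq_four, one_pow,
        inv_mul_eq_one₀ (by linarith : 2 * (1 + v 0) ≠ 0)]
      simp [w]
      linear_combination -h1
    · rw [hopf_smul, hw, inv_pow, hs, inv_smul_smul₀ (by linarith : 2 * (1 + v 0) ≠ 0)]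

/-- **Uniqueness of the invariant probability.** -/
theorem eq_map_hopf {ν : Measure E3} [IsProbabilityMeasure ν] (hν : ∀ᵐ v ∂ν, ‖v‖ = 1)
    (hinv : ∀ (q : R4), ‖q‖ = 1 → MeasurePreserving (conjQ q) ν ν) :
    ν = sphereLaw.map hopf := by
  have : IsProbabilityMeasure (sphereLaw.map hopf) :=
    Measure.isProbabilityMeasure_map continuous_hopf.measurable.aemeasurable
  refine ext_of_forall_integral_eq_of_IsFiniteMeasure fun φ => ?_
  rw [integral_map continuous_hopf.measurable.aemeasurable φ.continuous.aestronglyMeasurable]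
  have hint : Integrable (fun z : R4 × E3 => φ (conjQ z.1 z.2)) (sphereLaw.prod ν) :=
    Integrable.of_bound (φ.continuous.comp continuous_conjQ).aestronglyMeasurable ‖φ‖
      (Filter.Eventually.of_forall fun z => φ.norm_coe_le_norm _)
  have h1 : ∫ z, φ (conjQ z.1 z.2) ∂(sphereLaw.prod ν) = ∫ v, φ v ∂ν := by
    rw [integral_prod _ hint]
    refine Eq.trans (integral_congr_ae (g := fun _ => ∫ v, φ v ∂ν) ?_) (by simp)
    filter_upwards [SphereHecke.ae_norm_one] with u hu
    conv_rhs => rw [← (hinv u hu).map_eq]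
    rw [integral_map (hinv u hu).measurable.aemeasurable φ.continuous.aestronglyMeasurable]
  have h2 : ∫ z, φ (conjQ z.1 z.2) ∂(sphereLaw.prod ν) = ∫ u, φ (hopf u) ∂sphereLaw := by
    rw [integral_prod_symm _ hint]
    refine Eq.trans (integral_congr_ae (g := fun _ => ∫ u, φ (hopf u) ∂sphereLaw) ?_) (by simp)
    filter_upwards [hν] with v hv
    obtain ⟨q, hq, rfl⟩ := exists_hopf_eq hv
    refine Eq.trans ?_ (SphereHecke.integral_comp_isometry (rightEquiv hq)
      (φ := fun u => φ (hopf u)) (φ.continuous.comp continuous_hopf))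
    exact integral_congr_ae (Filter.Eventually.of_forall fun u =>
      congrArg φ (hopf_qprod u q).symm)
  rw [← h1, h2]

instance nontrivial_E3 : Nontrivial E3 :=
  ⟨⟨pt 1 0 0, 0, fun h => by simpa using congrArg (fun v : E3 => v 0) h⟩⟩

/-- **The area law is the image.** -/
theorem radialLaw_eq_map_hopf : radialLaw E3 = sphereLaw.map hopf :=
  eq_map_hopf (ae_radialLaw_norm E3) fun _ hq => measurePreserving_radialLaw (conjEquiv hq)

theorem measurePreserving_hopf : MeasurePreserving hopf sphereLaw (radialLaw E3) :=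
  ⟨continuous_hopf.measurable, radialLaw_eq_map_hopf.symm⟩

end FA.RuziewiczProblem

end
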