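import Fermat.Agent.RuziewiczProblem.Paradox
import Fermat.Agent.RuziewiczProblem.Gap
import Fermat.Agent.BanachRuziewicz.Means

/-!
# The problem of Ruziewicz on the spheres of dimension two and three

The paradox makes invariant means vanish on null sets; the gap makes them the invariant measure.
-/

set_option autoImplicit false
set_option linter.unusedSectionVars false
set_option linter.style.haveILetI false

noncomputable section

open Set MeasureTheory Quaternion
open scoped Quaternion
open FA.QuaternionJL FA.QuaternionJLSystems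
open FA.SphereHecke (R4 sphereLaw vec4)
open FA.BanachTarski (F₂ E3 pt toRot toRot_injective proper_toRot rotZ rotX angle poles
  countable_poles exists_absorbing ext3 cos_angle sin_angle rotZ_apply rotX_apply)

namespace FA.RuziewiczProblem

theorem PartMean.eq_measure {α ι : Type*} [MeasurableSpace α] {μ : Measure α}
    [IsProbabilityMeasure μ] [Fintype ι] {S : Set α} {m : Set α → ℝ} (hm : PartMean μ S m)
    (hS : MeasurableSet S) (hnull : ∀ s, s ⊆ S → μ s = 0 → m s = 0)
    (R : ι → α ≃ᵐ α) (hR : ∀ i, MeasurePreserving (R i) μ μ) (hRS : ∀ i x, R i x ∈ S ↔ x ∈ S)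
    (hinv : ∀ i, ∀ s, s ⊆ S → MeasurableSet s → m (R i ⁻¹' s) = m s) {κ : ℝ} (hκ : 0 < κ)
    (hgap : ∀ g : α → ℝ, MemLp g 2 μ →
      ∃ i, κ * ∫ u, (g u - ∫ v, g v ∂μ) ^ 2 ∂μ ≤ ∫ u, (g (R i u) - g u) ^ 2 ∂μ)
    {s : Set α} (hs : s ⊆ S) (hsm : NullMeasurableSet s μ) : m s = μ.real s := by
  have hgen : BanachRuziewicz.MeanInvariant μ R fun t => m (t ∩ S) :=
    { nonneg := fun t ht => hm.nonneg _ inter_subset_right (ht.inter hS).nullMeasurableSet
      univ := by simp only [univ_inter, hm.total]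
      union := fun t u ht hu h => by
        simp only [union_inter_distrib_right]
        exact hm.union _ _ inter_subset_right inter_subset_right (ht.inter hS).nullMeasurableSet
          (hu.inter hS).nullMeasurableSet (h.mono inter_subset_left inter_subset_left)
      null := fun t _ h => hnull _ inter_subset_right (measure_mono_null inter_subset_left h)
      invariant := fun i t ht => by
        have e : R i ⁻¹' t ∩ S = R i ⁻¹' (t ∩ S) := by
          ext x
          simp only [mem_inter_iff, mem_preimage, hRS]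
        show m (R i ⁻¹' t ∩ S) = m (t ∩ S)
        rw [e]
        exact hinv i _ inter_subset_right (ht.inter hS) }
  obtain ⟨t, hts, htm, hte⟩ := hsm.exists_measurable_subset_ae_eq
  have hd : μ (s \ t) = 0 := ae_le_set.1 hte.symm.le
  have h1 : m s = m t + m (s \ t) := by
    rw [← hm.union t (s \ t) (hts.trans hs) (sdiff_subset.trans hs) htm.nullMeasurableSet
      (.of_null hd) disjoint_sdiff_right, union_sdiff_cancel hts]
  have h2 : m t = μ.real t := by
    have h := hgen.eq_measure hκ hR hgap htm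
    rwa [inter_eq_self_of_subset_left (hts.trans hs)] at h
  rw [h1, h2, hnull _ (sdiff_subset.trans hs) hd, add_zero, measureReal_congr hte]

/-- The two-sphere. -/
def sphereTwo : Set E3 := {v | ‖v‖ = 1}

/-- The three-sphere. -/
def sphereThree : Set R4 := {u | ‖u‖ = 1}

theorem measurableSet_sphereTwo : MeasurableSet sphereTwo :=
  measurableSet_eq_fun measurable_norm measurable_const

theorem measurableSet_sphereThree : MeasurableSet sphereThree :=
  measurableSet_eq_fun measurable_norm measurable_const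

/-- The linear form of a rotation in the sense of the paradox. -/
def linRot (g : E3 ≃ᵢ E3) (hg : BanachTarski.Proper g) : E3 ≃ₗᵢ[ℝ] E3 :=
  g.toRealLinearIsometryEquivOfMapZero hg.map_zero

theorem isRotation_linRot (g : E3 ≃ᵢ E3) (hg : BanachTarski.Proper g) :
    IsRotation (linRot g hg) := hg.map_cross

theorem null_preimage {α : Type*} [MeasurableSpace α] {μ : Measure α} {g : α → α}
    (hg : MeasurePreserving g μ μ) {t : Set α} (ht : μ t = 0) : μ (g ⁻¹' t) = 0 :=
  hg.quasiMeasurePreserving.preimage_null ht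

variable {m : Set E3 → ℝ}

/-- **Invariant means vanish on the null sets of the two-sphere.** -/
theorem null_twosphere (hm : PartMean (radialLaw E3) sphereTwo m)
    (hinv : ∀ e : E3 ≃ₗᵢ[ℝ] E3, IsRotation e → ∀ s, s ⊆ sphereTwo →
      NullMeasurableSet s (radialLaw E3) → m (e ⁻¹' s) = m s)
    {N : Set E3} (hN : N ⊆ sphereTwo) (hN0 : radialLaw E3 N = 0) : m N = 0 := by
  have hrot : ∀ (g : E3 ≃ᵢ E3), BanachTarski.Proper g → (∀ x, g x ∈ sphereTwo ↔ x ∈ sphereTwo) ∧
      (∀ t, radialLaw E3 t = 0 → radialLaw E3 (g ⁻¹' t) = 0) ∧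
      ∀ t, t ⊆ sphereTwo → radialLaw E3 t = 0 → m (g ⁻¹' t) = m t := fun g hg => by
    refine ⟨fun x => ?_, fun t ht => null_preimage
      (measurePreserving_radialLaw (linRot g hg)) ht, fun t ht ht0 =>
      hinv _ (isRotation_linRot g hg) t ht (.of_null ht0)⟩
    show ‖g x‖ = 1 ↔ ‖x‖ = 1
    rw [show ‖g x‖ = ‖x‖ from (linRot g hg).norm_map x]
  have hpole : poles ⊆ sphereTwo := fun u hu => hu.1
  have hpole0 : radialLaw E3 poles = 0 := by
    refine radialLaw_countable ?_ countable_poles
    simp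
  have hmp : m poles = 0 := by
    obtain ⟨g, hg, hgD⟩ := exists_absorbing countable_poles fun d hd => hd.1
    obtain ⟨h1, h2, h3⟩ := hrot g hg
    refine hm.null_absorbed measurableSet_sphereTwo.nullMeasurableSet g h1 h2 h3 hpole hpole0
      fun n x hx hmem => hgD n x hx ?_
    have e : ∀ k : ℕ, ((g ^ k) x) = g^[k] x := fun k => by
      induction k with
      | zero => rfl
      | succ k ih =>
        rw [pow_succ', IsometryEquiv.mul_apply, ih, Function.iterate_succ_apply']
    rwa [e]
  have hfree : m (N \ poles) = 0 := by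
    refine hm.null_free toRot (fun w x hx => ((hrot _ (proper_toRot w)).1 x).2 hx)
      (fun w => (hrot _ (proper_toRot w)).2.1) (fun w => (hrot _ (proper_toRot w)).2.2)
      (sdiff_subset.trans hN) (measure_mono_null sdiff_subset hN0) fun w x hx hfix => ?_
    by_contra hw
    exact hx.2 ⟨hN hx.1, w, hw, hfix⟩
  have hinter : m (N ∩ poles) ≤ m poles := hm.mono_null inter_subset_right hpole hpole0
  have hNn : NullMeasurableSet (N ∩ poles) (radialLaw E3) :=
    .of_null (measure_mono_null inter_subset_left hN0)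
  have h := hm.union (N \ poles) (N ∩ poles) (sdiff_subset.trans hN)
    (inter_subset_left.trans hN) (.of_null (measure_mono_null sdiff_subset hN0)) hNn
    disjoint_sdiff_inter
  rw [sdiff_union_inter] at h
  linarith [hm.nonneg _ (inter_subset_left.trans hN) hNn]

/-- **The theorem for finitely many rotations of the two-sphere.** -/
theorem twosphere_finite (hm : PartMean (radialLaw E3) sphereTwo m) {p : ℕ} (hp : p.Prime)
    (h16 : 16 ≤ p) (hnull : ∀ s, s ⊆ sphereTwo → radialLaw E3 s = 0 → m s = 0)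
    (hinv : ∀ x ∈ normHz p, ∀ s, s ⊆ sphereTwo → MeasurableSet s →
      m (rotTwo p x ⁻¹' s) = m s)
    {s : Set E3} (hs : s ⊆ sphereTwo) (hsm : NullMeasurableSet s (radialLaw E3)) :
    m s = (radialLaw E3).real s := by
  set R : normHz p → E3 ≃ᵐ E3 := fun x =>
    (rotTwoEquiv hp.ne_zero x).toHomeomorph.toMeasurableEquiv
  have hco : ∀ x, ⇑(R x) = rotTwo p x := fun x => coe_rotTwoEquiv hp.ne_zero x
  refine hm.eq_measure measurableSet_sphereTwo hnull R
    (fun x => measurePreserving_radialLaw (rotTwoEquiv hp.ne_zero x)) (fun x v => ?_)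
    (fun x t ht htm => by rw [hco]; exact hinv x x.2 t ht htm)
    (pow_pos (sub_pos.2 (BanachRuziewicz.gapRate_lt_one h16)) 2) (fun g hg => ?_) hs hsm
  · show ‖rotTwoEquiv hp.ne_zero x v‖ = 1 ↔ ‖v‖ = 1
    rw [LinearIsometryEquiv.norm_map]
  · obtain ⟨x, hx⟩ := twosphere_moved hp h16 hg
    exact ⟨x, by simpa only [hco] using hx⟩

/-- **The problem of Ruziewicz on the two-sphere.** -/
theorem ruziewicz_twosphere (hm : PartMean (radialLaw E3) sphereTwo m)
    (hinv : ∀ e : E3 ≃ₗᵢ[ℝ] E3, IsRotation e → ∀ s, s ⊆ sphereTwo →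
      NullMeasurableSet s (radialLaw E3) → m (e ⁻¹' s) = m s)
    {s : Set E3} (hs : s ⊆ sphereTwo) (hsm : NullMeasurableSet s (radialLaw E3)) :
    m s = (radialLaw E3).real s := by
  obtain ⟨p, hp, h16⟩ : ∃ p : ℕ, p.Prime ∧ 16 ≤ p := ⟨17, by norm_num⟩
  refine twosphere_finite hm hp h16 (fun t ht ht0 => null_twosphere hm hinv ht ht0)
    (fun x hx t ht htm => ?_) hs hsm
  have h := hinv (rotTwoEquiv hp.ne_zero ⟨x, hx⟩) (isRotation_conjEquiv _) t ht
    htm.nullMeasurableSet
  rwa [coe_rotTwoEquiv] at h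

/-- The unit quaternions over the two rotations of the free group. -/
def genQ (b : Bool) : R4 :=
  (Real.sqrt 5)⁻¹ • if b then WithLp.toLp 2 ![2, 1, 0, 0] else WithLp.toLp 2 ![2, 0, 0, 1]

theorem norm_genQ (b : Bool) : ‖genQ b‖ = 1 := by
  refine (sq_eq_sq₀ (norm_nonneg _) zero_le_one).1 ?_
  rw [genQ, norm_smul, mul_pow, Real.norm_eq_abs, sq_abs, inv_pow,
    Real.sq_sqrt (by norm_num : (0 : ℝ) ≤ 5), norm_sq_four]
  cases b <;> simp <;> norm_num

theorem conjQ_genQ (b : Bool) (v : E3) :
    conjQ (genQ b) v = (if b then rotX angle else rotZ angle) v := by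
  rw [genQ, conjQ_smul, inv_pow, Real.sq_sqrt (by norm_num : (0 : ℝ) ≤ 5)]
  cases b
  · rw [if_neg Bool.false_ne_true, if_neg Bool.false_ne_true, rotZ_apply, cos_angle, sin_angle]
    refine ext3 ?_ ?_ ?_ <;> simp [conjQ] <;> ring
  · rw [if_pos rfl, if_pos rfl, rotX_apply, cos_angle, sin_angle]
    refine ext3 ?_ ?_ ?_ <;> simp [conjQ] <;> ring

/-- The free group acting on the three-sphere. -/
def toLeft : F₂ →* (R4 ≃ᵢ R4) :=
  FreeGroup.lift fun b => (leftEquiv (norm_genQ b)).toIsometryEquiv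

theorem exists_toLeft (w : F₂) : ∃ q : R4, ‖q‖ = 1 ∧ (∀ u, toLeft w u = qprod q u) ∧
    ∀ v, conjQ q v = toRot w v := by
  induction w using FreeGroup.induction_on with
  | C1 =>
    exact ⟨qone, norm_qone, fun u => by rw [map_one, qprod_qone]; rfl,
      fun v => by rw [map_one, conjQ_qone]; rfl⟩
  | of b =>
    exact ⟨genQ b, norm_genQ b, fun u => by rw [toLeft, FreeGroup.lift_apply_of]; rfl,
      fun v => by rw [toRot, FreeGroup.lift_apply_of, conjQ_genQ]⟩
  | inv_of b h =>
    obtain ⟨q, hq, h1, h2⟩ := h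
    refine ⟨qconj q, by rw [norm_qconj, hq], fun u => ?_, fun v => ?_⟩
    · refine (toLeft (FreeGroup.of b)).injective ?_
      rw [h1 (qprod _ u), ← IsometryEquiv.mul_apply, ← map_mul, mul_inv_cancel, map_one,
        ← qprod_assoc, qprod_qconj, hq, one_pow, one_smul, qprod_qone]
      rfl
    · refine (toRot (FreeGroup.of b)).injective ?_
      rw [← h2 (conjQ _ v), conjQ_left_inv hq, ← IsometryEquiv.mul_apply, ← map_mul,
        mul_inv_cancel, map_one]
      rfl
  | mul v w hv hw =>
    obtain ⟨q, hq, h1, h2⟩ := hv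
    obtain ⟨r, hr, h3, h4⟩ := hw
    exact ⟨qprod q r, by rw [norm_qprod, hq, hr, one_mul],
      fun u => by rw [map_mul, IsometryEquiv.mul_apply, h1, h3, qprod_assoc],
      fun u => by rw [map_mul, IsometryEquiv.mul_apply, conjQ_qprod, h4, h2]⟩

theorem toLeft_free {w : F₂} {u : R4} (hu : u ≠ 0) (h : toLeft w u = u) : w = 1 := by
  obtain ⟨q, hq, h1, h2⟩ := exists_toLeft w
  rw [h1] at h
  have hq1 : q = qone := by
    have h0 : qprod (q - qone) u = 0 := by
      rw [← qprodR_apply, map_sub, qprodR_apply, qprodR_apply, qprod_qone, h, sub_self]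
    have h3 := norm_qprod (q - qone) u
    rw [h0, norm_zero, eq_comm, mul_eq_zero, or_iff_left (norm_ne_zero_iff.2 hu), norm_eq_zero,
      sub_eq_zero] at h3
    exact h3
  refine toRot_injective (IsometryEquiv.ext fun v => ?_)
  rw [← h2, hq1, conjQ_qone, map_one]
  rfl

variable {n : Set R4 → ℝ}

/-- **Means invariant under the unit quaternions vanish on the null sets.** -/
theorem null_threesphere (hn : PartMean sphereLaw sphereThree n)
    (hinv : ∀ q : R4, ‖q‖ = 1 → ∀ s, s ⊆ sphereThree → NullMeasurableSet s sphereLaw →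
      n (qprod q ⁻¹' s) = n s)
    {N : Set R4} (hN : N ⊆ sphereThree) (hN0 : sphereLaw N = 0) : n N = 0 := by
  have hco : ∀ w : F₂, ∃ q : R4, ‖q‖ = 1 ∧ ⇑(toLeft w) = qprod q := fun w => by
    obtain ⟨q, hq, h, -⟩ := exists_toLeft w
    exact ⟨q, hq, funext h⟩
  refine hn.null_free toLeft (fun w x hx => ?_) (fun w t ht => ?_) (fun w t ht ht0 => ?_) hN hN0
    fun w x hx hfix => toLeft_free (fun e => ?_) hfix
  · obtain ⟨q, hq, e⟩ := hco w
    show ‖toLeft w x‖ = 1
    rw [e, norm_qprod, hq, hx, one_mul]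
  · obtain ⟨q, hq, e⟩ := hco w
    rw [e, ← coe_leftEquiv hq]
    exact null_preimage (BanachRuziewicz.measurePreserving_isometry (leftEquiv hq)) ht
  · obtain ⟨q, hq, e⟩ := hco w
    rw [e]
    exact hinv q hq t ht (.of_null ht0)
  · have h : ‖x‖ = 1 := hN hx
    rw [e, norm_zero] at h
    exact zero_ne_one h

/-- **The problem of Ruziewicz on the three-sphere.** -/
theorem ruziewicz_threesphere (hn : PartMean sphereLaw sphereThree n)
    (hinv : ∀ q : R4, ‖q‖ = 1 → ∀ s, s ⊆ sphereThree → NullMeasurableSet s sphereLaw →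
      n (qprod q ⁻¹' s) = n s)
    {s : Set R4} (hs : s ⊆ sphereThree) (hsm : NullMeasurableSet s sphereLaw) :
    n s = sphereLaw.real s := by
  obtain ⟨p, hp, h16⟩ : ∃ p : ℕ, p.Prime ∧ 16 ≤ p := ⟨17, by norm_num⟩
  refine hn.eq_measure measurableSet_sphereThree
    (fun t ht ht0 => null_threesphere hn hinv ht ht0) (BanachRuziewicz.rotMeas hp.ne_zero)
    (fun x => ?_) (fun x v => ?_) (fun x t ht htm => ?_)
    (pow_pos (sub_pos.2 (BanachRuziewicz.gapRate_lt_one h16)) 2) (fun g hg => ?_) hs hsm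
  · rw [BanachRuziewicz.coe_rotMeas]
    exact BanachRuziewicz.measurePreserving_rotFun hp.ne_zero x.2
  · show ‖BanachRuziewicz.rotMeas hp.ne_zero x v‖ = 1 ↔ ‖v‖ = 1
    rw [BanachRuziewicz.coe_rotMeas, BanachRuziewicz.norm_rotFun hp.ne_zero x.2]
  · have e : ⇑(BanachRuziewicz.rotMeas hp.ne_zero x) =
        qprod ((Real.sqrt p)⁻¹ • vec4 x) := by
      rw [BanachRuziewicz.coe_rotMeas]
      exact funext (rotFun_eq_qprod p x)
    rw [e]
    exact hinv _ (norm_scaled hp.ne_zero x.2) t ht htm.nullMeasurableSet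
  · obtain ⟨x, hx, h⟩ := BanachRuziewicz.exists_moved hp h16 (hg.toLp g)
    refine ⟨⟨x, hx⟩, ?_⟩
    have h2 := pow_le_pow_left₀ (mul_nonneg
      (sub_nonneg.2 (BanachRuziewicz.gapRate_lt_one h16).le) (norm_nonneg _)) h 2
    rw [mul_pow, BanachRuziewicz.centred_toLp hg,
      BanachRuziewicz.rotL_toLp hp.ne_zero hx hg] at h2
    rw [BanachRuziewicz.coe_rotMeas]
    exact h2

end FA.RuziewiczProblem

end
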