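import Fermat.Agent.BanachTarski.Paradox
import Fermat.Agent.RuziewiczProblem.Hopf
import Fermat.Agent.BanachTarski.Main

/-!
# Invariant means vanish on null sets

An invariant null set on which the free group acts freely is two copies of itself, so it has mean
zero; the null sets are contained in such sets, and the countably many poles are absorbed.
-/

set_option autoImplicit false
set_option linter.unusedSectionVars false
set_option linter.style.haveILetI false

noncomputable section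

open Set MeasureTheory
open FA.SphereHecke (R4 sphereLaw)
open FA.BanachTarski (F₂ piece exists_piece piece_disjoint shift_left shift_right E3 pt toRot
  toRot_injective proper_toRot rotZ rotX angle poles countable_poles exists_absorbing ext3)

namespace FA.RuziewiczProblem

/-- A finitely additive probability on the measurable parts of `S`. -/
structure PartMean {α : Type*} [MeasurableSpace α] (μ : Measure α) (S : Set α) (m : Set α → ℝ) :
    Prop where
  nonneg : ∀ s, s ⊆ S → NullMeasurableSet s μ → 0 ≤ m s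
  total : m S = 1
  union : ∀ s t, s ⊆ S → t ⊆ S → NullMeasurableSet s μ → NullMeasurableSet t μ → Disjoint s t →
    m (s ∪ t) = m s + m t

variable {α : Type*} [MeasurableSpace α] {μ : Measure α} {S : Set α} {m : Set α → ℝ}

theorem PartMean.empty (hm : PartMean μ S m) : m ∅ = 0 := by
  have h := hm.union ∅ ∅ (empty_subset S) (empty_subset S) MeasurableSet.empty.nullMeasurableSet
    MeasurableSet.empty.nullMeasurableSet (disjoint_empty ∅)
  rw [union_self] at h
  linarith

theorem PartMean.mono_null (hm : PartMean μ S m) {s t : Set α} (hst : s ⊆ t) (htS : t ⊆ S)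
    (ht : μ t = 0) : m s ≤ m t := by
  have hd : NullMeasurableSet (t \ s) μ := .of_null (measure_mono_null sdiff_subset ht)
  have h := hm.union s (t \ s) (hst.trans htS) (sdiff_subset.trans htS)
    (.of_null (measure_mono_null hst ht)) hd disjoint_sdiff_right
  rw [union_sdiff_cancel hst] at h
  linarith [hm.nonneg (t \ s) (sdiff_subset.trans htS) hd]

section action

variable [PseudoMetricSpace α] (φ : F₂ →* (α ≃ᵢ α))
  (hφS : ∀ w, ∀ x ∈ S, φ w x ∈ S) (hφn : ∀ w, ∀ t, μ t = 0 → μ (φ w ⁻¹' t) = 0)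
  (hφm : ∀ w, ∀ t, t ⊆ S → μ t = 0 → m (φ w ⁻¹' t) = m t)

include hφS hφn hφm

/-- **A null set of free points has mean zero.** -/
theorem PartMean.null_free (hm : PartMean μ S m) {N : Set α} (hN : N ⊆ S) (hN0 : μ N = 0)
    (hfree : ∀ w, ∀ x ∈ N, φ w x = x → w = 1) : m N = 0 := by
  classical
  have : Countable F₂ := FreeGroup.toWord_injective.countable
  have hmul : ∀ v w (x : α), φ (v * w) x = φ v (φ w x) := fun v w x => by rw [map_mul]; rfl
  have hone : ∀ x : α, φ 1 x = x := fun x => by rw [map_one]; rfl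
  set O : Set α := ⋃ w, φ w ⁻¹' N with hO
  have hO0 : μ O = 0 := measure_iUnion_null fun w => hφn w N hN0
  have hOS : O ⊆ S := fun x hx => by
    obtain ⟨w, hw⟩ := mem_iUnion.1 hx
    have h := hφS w⁻¹ _ (hN hw)
    rwa [← hmul, inv_mul_cancel, hone] at h
  have hNO : N ⊆ O := fun x hx => mem_iUnion.2 ⟨1, by rwa [mem_preimage, hone]⟩
  have hinv : ∀ v, ∀ x ∈ O, φ v x ∈ O := fun v x hx => by
    obtain ⟨w, hw⟩ := mem_iUnion.1 hx
    exact mem_iUnion.2 ⟨w * v⁻¹, by rwa [mem_preimage, ← hmul, inv_mul_cancel_right]⟩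
  have hfreeO : ∀ v, ∀ x ∈ O, φ v x = x → v = 1 := fun v x hx hfix => by
    obtain ⟨w, hw⟩ := mem_iUnion.1 hx
    have h := hfree (w * v * w⁻¹) _ hw (by
      rw [hmul, hmul, ← hmul w⁻¹ w, inv_mul_cancel, hone, hfix])
    rwa [mul_inv_eq_one, mul_eq_left] at h
  -- a point in each orbit
  set rep : α → α := fun x =>
    @Classical.epsilon α ⟨x⟩ fun y => ∃ w, φ w y = x
  have hex : ∀ x, ∃ w, φ w (rep x) = x :=
    fun x => Classical.epsilon_spec (p := fun y => ∃ w, φ w y = x) ⟨x, 1, hone x⟩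
  choose code hcode using hex
  have hrepO : ∀ x ∈ O, rep x ∈ O := fun x hx => by
    rw [← hone (rep x), ← inv_mul_cancel (code x), hmul, hcode]
    exact hinv _ x hx
  have hrep : ∀ v x, rep (φ v x) = rep x := fun v x => by
    refine congrArg (@Classical.epsilon α ⟨x⟩) (funext fun y => propext ⟨?_, ?_⟩)
    · rintro ⟨w, hw⟩
      exact ⟨v⁻¹ * w, by rw [hmul, hw, ← hmul, inv_mul_cancel, hone]⟩
    · rintro ⟨w, hw⟩
      exact ⟨v * w, by rw [hmul, hw]⟩
  have hcode' : ∀ v, ∀ x ∈ O, code (φ v x) = v * code x := fun v x hx => by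
    have h1 : φ (v * code x) (rep x) = φ (code (φ v x)) (rep x) := by
      rw [hmul, hcode, ← hrep v x, hcode]
    have h2 : φ ((code (φ v x))⁻¹ * (v * code x)) (rep x) = rep x := by
      rw [hmul, h1, ← hmul, inv_mul_cancel, hone]
    exact inv_mul_eq_one.1 (hfreeO _ _ (hrepO x hx) h2)
  set P : Fin 4 → Set α := fun i => {x ∈ O | code x ∈ piece i}
  have hPO : ∀ i, P i ⊆ O := fun i x hx => hx.1
  have hPn : ∀ i, μ (P i) = 0 := fun i => measure_mono_null (hPO i) hO0
  have hhalf : ∀ (v : F₂) (i j : Fin 4), (∀ w, v⁻¹ * w ∈ piece i ↔ w ∉ piece j) →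
      m (P i) + m (P j) = m O := fun v i j hv => by
    have e : φ v⁻¹ ⁻¹' P i = O \ P j := by
      ext x
      constructor
      · rintro ⟨hxO, hxc⟩
        have hxO' : x ∈ O := by
          have h := hinv v _ hxO
          rwa [← hmul, mul_inv_cancel, hone] at h
        refine ⟨hxO', fun h => (hv (code x)).1 ?_ h.2⟩
        rwa [← hcode' _ x hxO']
      · rintro ⟨hxO, hxc⟩
        refine ⟨hinv _ x hxO, ?_⟩
        rw [hcode' _ x hxO]
        exact (hv _).2 fun h => hxc ⟨hxO, h⟩
    have h := hm.union (P j) (O \ P j) ((hPO j).trans hOS) (sdiff_subset.trans hOS)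
      (.of_null (hPn j)) (.of_null (measure_mono_null sdiff_subset hO0)) disjoint_sdiff_right
    rw [union_sdiff_cancel (hPO j), ← e, hφm _ _ ((hPO i).trans hOS) (hPn i)] at h
    linarith
  have hdisj : ∀ i j, i ≠ j → Disjoint (P i) (P j) := fun i j hij =>
    disjoint_left.2 fun x hi hj => hij (piece_disjoint hi.2 hj.2)
  have hnm : ∀ s, s ⊆ O → NullMeasurableSet s μ := fun s hs => .of_null (measure_mono_null hs hO0)
  have hall : P 0 ∪ P 1 ∪ (P 2 ∪ P 3) = O := by
    refine Subset.antisymm (union_subset (union_subset (hPO 0) (hPO 1))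
      (union_subset (hPO 2) (hPO 3))) fun x hx => ?_
    obtain ⟨i, hi⟩ := exists_piece (code x)
    have hxi : x ∈ P i := ⟨hx, hi⟩
    fin_cases i
    · exact Or.inl (Or.inl hxi)
    · exact Or.inl (Or.inr hxi)
    · exact Or.inr (Or.inl hxi)
    · exact Or.inr (Or.inr hxi)
  have h01 : P 0 ∪ P 1 ⊆ O := union_subset (hPO 0) (hPO 1)
  have h23 : P 2 ∪ P 3 ⊆ O := union_subset (hPO 2) (hPO 3)
  have hsum := hm.union _ _ (h01.trans hOS) (h23.trans hOS) (hnm _ h01) (hnm _ h23) (by
    simp only [disjoint_union_left, disjoint_union_right]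
    exact ⟨⟨hdisj _ _ (by decide), hdisj _ _ (by decide)⟩,
      ⟨hdisj _ _ (by decide), hdisj _ _ (by decide)⟩⟩)
  rw [hall, hm.union _ _ ((hPO 0).trans hOS) ((hPO 1).trans hOS) (hnm _ (hPO 0)) (hnm _ (hPO 1))
      (hdisj _ _ (by decide)),
    hm.union _ _ ((hPO 2).trans hOS) ((hPO 3).trans hOS) (hnm _ (hPO 2)) (hnm _ (hPO 3))
      (hdisj _ _ (by decide))] at hsum
  have h1 := hhalf _ 1 0 shift_left
  have h2 := hhalf _ 3 2 shift_right
  have hN1 := hm.mono_null hNO hOS hO0
  have hN2 := hm.nonneg N hN (.of_null hN0)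
  linarith

end action

/-- **A null set disjoint from all its translates has mean zero.** -/
theorem PartMean.null_absorbed (hm : PartMean μ S m) (hSm : NullMeasurableSet S μ) (g : α → α)
    (hgS : ∀ x, g x ∈ S ↔ x ∈ S)
    (hgn : ∀ t, μ t = 0 → μ (g ⁻¹' t) = 0) (hgm : ∀ t, t ⊆ S → μ t = 0 → m (g ⁻¹' t) = m t)
    {D : Set α} (hD : D ⊆ S) (hD0 : μ D = 0) (hdis : ∀ n : ℕ, ∀ x ∈ D, g^[n + 1] x ∉ D) :
    m D = 0 := by
  have hsub : ∀ n, g^[n] ⁻¹' D ⊆ S ∧ μ (g^[n] ⁻¹' D) = 0 ∧ m (g^[n] ⁻¹' D) = m D := fun n => by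
    induction n with
    | zero => exact ⟨hD, hD0, rfl⟩
    | succ n ih =>
      rw [Function.iterate_succ, preimage_comp]
      exact ⟨fun x hx => (hgS x).1 (ih.1 hx), hgn _ ih.2.1,
        (hgm _ ih.1 ih.2.1).trans ih.2.2⟩
  have hdis' : ∀ {i n : ℕ}, i < n → Disjoint (g^[i] ⁻¹' D) (g^[n] ⁻¹' D) := fun {i n} hin => by
    obtain ⟨k, rfl⟩ := Nat.exists_eq_add_of_lt hin
    refine disjoint_left.2 fun x hi hn => hdis k _ hi ?_
    rwa [mem_preimage, show i + k + 1 = k + 1 + i by ring, Function.iterate_add_apply] at hn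
  have hsum : ∀ K : ℕ, m (⋃ n ∈ Finset.range K, g^[n] ⁻¹' D) = K * m D ∧
      μ (⋃ n ∈ Finset.range K, g^[n] ⁻¹' D) = 0 ∧
      (⋃ n ∈ Finset.range K, g^[n] ⁻¹' D) ⊆ S := fun K => by
    induction K with
    | zero => simp [hm.empty]
    | succ K ih =>
      have e : (⋃ n ∈ Finset.range (K + 1), g^[n] ⁻¹' D) =
          (⋃ n ∈ Finset.range K, g^[n] ⁻¹' D) ∪ g^[K] ⁻¹' D := by
        rw [Finset.range_add_one, Finset.set_biUnion_insert, union_comm]
      rw [e]
      refine ⟨?_, measure_union_null ih.2.1 (hsub K).2.1, union_subset ih.2.2 (hsub K).1⟩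
      rw [hm.union _ _ ih.2.2 (hsub K).1 (.of_null ih.2.1) (.of_null (hsub K).2.1)
        (disjoint_iUnion₂_left.2 fun n hn => hdis' (Finset.mem_range.1 hn)), ih.1, (hsub K).2.2]
      push_cast
      ring
  refine le_antisymm (le_of_not_gt fun hpos => ?_) (hm.nonneg D hD (.of_null hD0))
  obtain ⟨K, hK⟩ := exists_nat_gt (m D)⁻¹
  obtain ⟨hK1, hK2, hK3⟩ := hsum K
  have hS : m (⋃ n ∈ Finset.range K, g^[n] ⁻¹' D) ≤ 1 := by
    have hd := hSm.diff (.of_null hK2)
    have h := hm.union _ _ hK3 sdiff_subset (.of_null hK2) hd disjoint_sdiff_right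
    rw [union_sdiff_cancel hK3, hm.total] at h
    linarith [hm.nonneg _ sdiff_subset hd]
  rw [hK1] at hS
  rw [inv_lt_iff_one_lt_mul₀ hpos] at hK
  linarith

end FA.RuziewiczProblem

end
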