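import Fermat.Agent.SphereHecke.Sphere
import Mathlib.MeasureTheory.Measure.Lebesgue.EqHaar

/-!
# The uniform law on the unit sphere of a Euclidean space

It is the law of the direction of a uniform point of the ball; it is invariant under isometries
fixing the origin, is carried by the sphere and, in dimension at least two, has no atoms.
-/

set_option autoImplicit false
set_option linter.unusedSectionVars false
set_option linter.style.haveILetI false

noncomputable section

open MeasureTheory Metric Module
open scoped RealInnerProductSpace ENNReal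

namespace FA.RuziewiczProblem

variable (E : Type*) [NormedAddCommGroup E] [InnerProductSpace ℝ E] [FiniteDimensional ℝ E]
  [MeasurableSpace E] [BorelSpace E]

/-- The uniform law on the sphere. -/
def radialLaw : Measure E :=
  (ProbabilityTheory.cond volume (ball (0 : E) 1)).map fun x => ‖x‖⁻¹ • x

theorem radialLaw_R4 : radialLaw SphereHecke.R4 = SphereHecke.sphereLaw := rfl

theorem measurable_radialMap : Measurable fun x : E => ‖x‖⁻¹ • x :=
  measurable_norm.inv.smul measurable_id

instance isProbabilityMeasure_radialLaw : IsProbabilityMeasure (radialLaw E) := by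
  have : IsProbabilityMeasure (ProbabilityTheory.cond (volume : Measure E) (ball (0 : E) 1)) :=
    ProbabilityTheory.cond_isProbabilityMeasure_of_finite
      (measure_ball_pos volume 0 one_pos).ne' measure_ball_lt_top.ne
  exact Measure.isProbabilityMeasure_map (measurable_radialMap E).aemeasurable

theorem ae_radialLaw_norm [Nontrivial E] : ∀ᵐ u ∂radialLaw E, ‖u‖ = 1 := by
  rw [radialLaw, ae_map_iff (measurable_radialMap E).aemeasurable
    (measurableSet_eq_fun measurable_norm measurable_const)]
  refine ProbabilityTheory.cond_absolutelyContinuous.ae_le ?_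
  filter_upwards [Measure.ae_ne volume (0 : E)] with x hx
  rw [norm_smul, norm_inv, norm_norm, inv_mul_cancel₀ (norm_ne_zero_iff.2 hx)]

variable {E}

/-- **Invariance.** -/
theorem measurePreserving_radialLaw (e : E ≃ₗᵢ[ℝ] E) :
    MeasurePreserving e (radialLaw E) (radialLaw E) := by
  refine ⟨e.continuous.measurable, ?_⟩
  have hball : (e : E → E) ⁻¹' ball (0 : E) 1 = ball (0 : E) 1 := by
    ext x
    simp
  have hc : (ProbabilityTheory.cond volume (ball (0 : E) 1)).map e =
      ProbabilityTheory.cond volume (ball (0 : E) 1) := by
    have h := (e.measurePreserving.restrict_preimage (measurableSet_ball (x := (0 : E)) (ε := 1)))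
    rw [hball] at h
    rw [ProbabilityTheory.cond, Measure.map_smul, h.map_eq]
  have hcomm : (e : E → E) ∘ (fun x : E => ‖x‖⁻¹ • x) = (fun x : E => ‖x‖⁻¹ • x) ∘ e := by
    funext x
    simp
  rw [radialLaw, Measure.map_map e.continuous.measurable (measurable_radialMap E), hcomm,
    ← Measure.map_map (measurable_radialMap E) e.continuous.measurable, hc]

/-- **No atoms.** -/
theorem radialLaw_singleton (hE : 2 ≤ finrank ℝ E) (v : E) : radialLaw E {v} = 0 := by
  rw [radialLaw, Measure.map_apply (measurable_radialMap E) (measurableSet_singleton v)]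
  refine ProbabilityTheory.cond_absolutelyContinuous ?_
  have hne : Submodule.span ℝ {v} ≠ ⊤ := fun h => by
    have h1 := finrank_span_le_card (R := ℝ) ({v} : Set E)
    rw [h, finrank_top, Set.toFinset_card, Fintype.card_unique] at h1
    omega
  refine measure_mono_null (fun x hx => ?_) (Measure.addHaar_submodule volume _ hne)
  rw [Set.mem_preimage, Set.mem_singleton_iff] at hx
  rw [SetLike.mem_coe, Submodule.mem_span_singleton]
  rcases eq_or_ne x 0 with rfl | h0
  · exact ⟨0, zero_smul ℝ v⟩
  · exact ⟨‖x‖, by rw [← hx, smul_inv_smul₀ (norm_ne_zero_iff.2 h0)]⟩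

theorem radialLaw_countable (hE : 2 ≤ finrank ℝ E) {D : Set E} (hD : D.Countable) :
    radialLaw E D = 0 := by
  rw [← Set.biUnion_of_singleton D]
  exact (measure_biUnion_null_iff hD).2 fun v _ => radialLaw_singleton hE v

end FA.RuziewiczProblem

end
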